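import Fermat.Agent.HooleyRoots.Count
import Mathlib.NumberTheory.Harmonic.EulerMascheroni
import Mathlib.Analysis.PSeries

/-!
# The second term of `∑ ρ d / d`

`∑_{d ≤ N} ρ d / d = 3 / (2 π) log N + b + O (N ^ (-1/8))`, by partial summation from the count of
the roots.
-/

set_option autoImplicit false

noncomputable section

namespace FA.HooleyDivisor

open Finset
open FA.QuadDivisor (rootCount sum_inv_eq_harmonic)
open scoped Real

/-- The error in the count of the roots. -/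
def rootErr (N : ℕ) : ℝ := (∑ n ∈ Ioc 0 N, (rootCount n : ℝ)) - 3 / (2 * π) * N

theorem abs_rootErr_le (N : ℕ) : |rootErr N| ≤ 30 * (N : ℝ) ^ (3 / 4 : ℝ) := by
  refine (HooleyRoots.abs_sum_rootCount_sub_le N).trans ?_
  rcases Nat.eq_zero_or_pos N with rfl | hN
  · simp
  have hN1 : (1 : ℝ) ≤ N := Nat.one_le_cast.2 hN
  have h1 := Real.log_le_rpow_div (x := (N : ℝ)) (by linarith) (show (0 : ℝ) < 1 / 4 by norm_num)
  rw [le_div_iff₀ (by norm_num)] at h1
  have h2 : (1 : ℝ) ≤ (N : ℝ) ^ (1 / 4 : ℝ) := Real.one_le_rpow hN1 (by norm_num)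
  calc 6 * Real.sqrt N * (1 + Real.log N) ≤ 6 * Real.sqrt N * (5 * (N : ℝ) ^ (1 / 4 : ℝ)) := by
        gcongr
        linarith
    _ = 30 * ((N : ℝ) ^ (1 / 2 : ℝ) * (N : ℝ) ^ (1 / 4 : ℝ)) := by
        rw [Real.sqrt_eq_rpow]
        ring
    _ = _ := by
        rw [← Real.rpow_add (by linarith)]
        norm_num

/-- Partial summation. -/
theorem sum_rootCount_div_eq (N : ℕ) :
    ∑ n ∈ Ioc 0 N, ((rootCount n : ℝ) - 3 / (2 * π)) / n =
      rootErr N / ((N : ℝ) + 1) + ∑ n ∈ Ioc 0 N, rootErr n / ((n : ℝ) * ((n : ℝ) + 1)) := by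
  induction N with
  | zero => simp [rootErr]
  | succ N ih =>
    rw [sum_Ioc_succ_top (Nat.zero_le N), ih, sum_Ioc_succ_top (Nat.zero_le N)]
    have e : rootErr (N + 1) = rootErr N + ((rootCount (N + 1) : ℝ) - 3 / (2 * π)) := by
      rw [rootErr, rootErr, sum_Ioc_succ_top (Nat.zero_le N)]
      push_cast
      ring
    rw [e]
    push_cast
    field_simp
    ring

/-- **The two terms of `∑ ρ d / d`.** -/
theorem exists_sum_rootCount_div_eq : ∃ b C : ℝ, ∀ N : ℕ, 1 ≤ N →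
    |(∑ n ∈ Ioc 0 N, (rootCount n : ℝ) / n) - 3 / (2 * π) * Real.log N - b| ≤
      C * (N : ℝ) ^ (-(1 / 8) : ℝ) := by
  obtain ⟨u, hu⟩ : ∃ u : ℕ → ℝ, u = fun n => rootErr n / ((n : ℝ) * ((n : ℝ) + 1)) := ⟨_, rfl⟩
  have hbd : ∀ n : ℕ, |u n| ≤ 30 * (n : ℝ) ^ (-(5 / 4) : ℝ) := fun n => by
    rcases Nat.eq_zero_or_pos n with rfl | hn
    · simp [hu]
    have hn0 : (0 : ℝ) < n := Nat.cast_pos.2 hn
    have hd : 0 < (n : ℝ) * ((n : ℝ) + 1) := by positivity
    rw [hu]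
    simp only [abs_div, abs_of_pos hd]
    refine (div_le_div₀ (by positivity) (abs_rootErr_le n) (pow_pos hn0 2)
      (show (n : ℝ) ^ 2 ≤ (n : ℝ) * ((n : ℝ) + 1) by nlinarith)).trans_eq ?_
    rw [mul_div_assoc, ← Real.rpow_natCast (n : ℝ) 2, ← Real.rpow_sub hn0]
    norm_num
  have hsum0 : Summable fun n : ℕ => 30 * (n : ℝ) ^ (-(5 / 4) : ℝ) :=
    (Real.summable_nat_rpow.2 (by norm_num)).mul_left 30
  have hsum : Summable u := Summable.of_norm_bounded hsum0 fun n => hbd n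
  obtain ⟨Z, hZ⟩ : ∃ Z : ℝ, Z = ∑' n : ℕ, (n : ℝ) ^ (-(9 / 8) : ℝ) := ⟨_, rfl⟩
  have hZs : Summable fun n : ℕ => (n : ℝ) ^ (-(9 / 8) : ℝ) :=
    Real.summable_nat_rpow.2 (by norm_num)
  have hZ0 : 0 ≤ Z := hZ ▸ tsum_nonneg fun n => by positivity
  obtain ⟨γ, hγ⟩ : ∃ γ : ℝ, γ = Real.eulerMascheroniConstant := ⟨_, rfl⟩
  obtain ⟨c, hc⟩ : ∃ c : ℝ, c = 3 / (2 * π) := ⟨_, rfl⟩
  have hc0 : 0 ≤ c := hc ▸ by positivity
  refine ⟨(∑' n, u n) + c * γ, 30 + 30 * Z + c, fun N hN => ?_⟩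
  have hN1 : (1 : ℝ) ≤ N := Nat.one_le_cast.2 hN
  have hN0 : (0 : ℝ) < N := by linarith
  obtain ⟨ε, hε⟩ : ∃ ε : ℝ, ε = (N : ℝ) ^ (-(1 / 8) : ℝ) := ⟨_, rfl⟩
  have hε0 : 0 ≤ ε := hε ▸ by positivity
  have h1 : |(∑' n, u n) - ∑ n ∈ Ioc 0 N, u n| ≤ 30 * Z * ε := by
    have e : ∑ n ∈ Ioc 0 N, u n = ∑ n ∈ range (N + 1), u n := by
      rw [range_eq_Ico, sum_eq_sum_Ico_succ_bot (Nat.succ_pos N), hu]
      simp only [Nat.cast_zero, zero_mul, div_zero, zero_add]
      exact sum_congr (by ext; simp; omega) fun _ _ => rfl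
    rw [e, ← hsum.sum_add_tsum_nat_add (N + 1), add_sub_cancel_left, ← Real.norm_eq_abs]
    refine tsum_of_norm_bounded (((summable_nat_add_iff (N + 1)).2 hZs).mul_left
      (30 * ε)).hasSum (fun n => ?_) |>.trans ?_
    · refine (hbd _).trans ?_
      rw [mul_assoc, show (-(5 / 4) : ℝ) = -(1 / 8) + -(9 / 8) by norm_num,
        Real.rpow_add (Nat.cast_pos.2 (by omega))]
      refine mul_le_mul_of_nonneg_left (mul_le_mul_of_nonneg_right ?_ (by positivity)) (by norm_num)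
      rw [hε]
      exact Real.rpow_le_rpow_of_nonpos hN0 (Nat.cast_le.2 (by omega)) (by norm_num)
    · rw [tsum_mul_left, mul_right_comm]
      refine mul_le_mul_of_nonneg_right (mul_le_mul_of_nonneg_left ?_ (by norm_num)) hε0
      rw [hZ, ← hZs.sum_add_tsum_nat_add (N + 1)]
      exact le_add_of_nonneg_left (sum_nonneg fun n _ => by positivity)
  have h2 : |rootErr N / ((N : ℝ) + 1)| ≤ 30 * ε := by
    rw [abs_div, abs_of_pos (show (0 : ℝ) < (N : ℝ) + 1 by linarith), div_le_iff₀ (by linarith)]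
    refine (abs_rootErr_le N).trans ?_
    calc 30 * (N : ℝ) ^ (3 / 4 : ℝ) ≤ 30 * (N : ℝ) ^ (-(1 / 8) + 1 : ℝ) := by
          refine mul_le_mul_of_nonneg_left ?_ (by norm_num)
          exact Real.rpow_le_rpow_of_exponent_le hN1 (by norm_num)
      _ = 30 * ε * N := by rw [Real.rpow_add hN0, Real.rpow_one, ← hε]; ring
      _ ≤ 30 * ε * ((N : ℝ) + 1) := by gcongr; linarith
  have h3 : |c * ((harmonic N : ℝ) - Real.log N - γ)| ≤ c * ε := by
    rw [abs_mul, abs_of_nonneg hc0]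
    refine mul_le_mul_of_nonneg_left ?_ hc0
    have hlo := Real.eulerMascheroniSeq_lt_eulerMascheroniConstant N
    have hhi := Real.eulerMascheroniConstant_lt_eulerMascheroniSeq' N
    rw [Real.eulerMascheroniSeq, ← hγ] at hlo
    rw [Real.eulerMascheroniSeq', if_neg (by omega : N ≠ 0), ← hγ] at hhi
    have hl := Real.log_le_sub_one_of_pos (show (0 : ℝ) < ((N : ℝ) + 1) / N by positivity)
    rw [Real.log_div (by linarith) hN0.ne', add_div, div_self hN0.ne', add_sub_cancel_left] at hl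
    have hle : 1 / (N : ℝ) ≤ ε := by
      rw [hε, one_div, ← Real.rpow_neg_one]
      exact Real.rpow_le_rpow_of_exponent_le hN1 (by norm_num)
    rw [abs_le]
    constructor <;> linarith
  have e : (∑ n ∈ Ioc 0 N, (rootCount n : ℝ) / n) - c * Real.log N - ((∑' n, u n) + c * γ) =
      rootErr N / ((N : ℝ) + 1) - ((∑' n, u n) - ∑ n ∈ Ioc 0 N, u n) +
        c * ((harmonic N : ℝ) - Real.log N - γ) := by
    have h := sum_rootCount_div_eq N
    rw [← hc] at h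
    simp only [sub_div, sum_sub_distrib, div_eq_mul_one_div c] at h
    rw [← mul_sum, sum_inv_eq_harmonic] at h
    rw [hu]
    linarith
  rw [← hc, e, ← hε]
  refine (abs_add_le _ _).trans ((add_le_add (abs_sub _ _) le_rfl).trans ?_)
  linarith

end FA.HooleyDivisor
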