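import Fermat.Agent.HooleyDivisor.Saw
import Fermat.Agent.HooleyDivisor.Mean
import Fermat.Agent.QuadraticDivisor.Main
import Fermat.Agent.HooleyPrime.Uniform

/-!
# Hooley's asymptotic for `∑ τ (n ^ 2 + 1)`

`τ (n ^ 2 + 1)` is twice the number of its divisors `d ≤ n`, so the sum over `n ≤ x` is
`2 ∑_{d ≤ x} ∑_ν ⌊(x - ν) / d⌋` over the roots `ν`. The fractional parts average `1/2` with the
error `O (x ^ (19/20))`, by the exponential sums over the roots.
-/

set_option autoImplicit false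

noncomputable section

namespace FA.HooleyDivisor

open Finset
open FA.QuadDivisor (rootCount rootCount_apply)
open FA.HooleyPrime (rootSet expRoots)
open FA.ThreePrimes (eAdd eAdd_add norm_eAdd)
open scoped Real

theorem card_rootSet_eq (d : ℕ) : #(rootSet d) = rootCount d := rfl

/-- The multiples in `[d, N]`, root by root. -/
theorem card_hits_eq {d N : ℕ} (hd : 0 < d) (hdN : d ≤ N) :
    #((Ico d (N + 1)).filter fun n => d ∣ n ^ 2 + 1) = ∑ v ∈ rootSet d, (N - v) / d := by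
  rw [sum_congr rfl fun v _ => show (N - v) / d = #(Icc 1 ((N - v) / d)) by
    rw [Nat.card_Icc, Nat.add_sub_cancel], ← card_sigma]
  refine card_nbij' (fun n => ⟨n % d, n / d⟩) (fun x => x.1 + d * x.2) ?_ ?_ ?_ ?_
  · intro n hn
    simp only [mem_coe, mem_filter, mem_Ico] at hn
    simp only [mem_coe, mem_sigma, mem_Icc, rootSet, mem_filter, mem_range]
    refine ⟨⟨Nat.mod_lt n hd, (QuadDivisor.dvd_mod_iff d n).2 hn.2⟩,
      Nat.div_pos hn.1.1 hd, ?_⟩
    rw [Nat.le_div_iff_mul_le hd]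
    have := Nat.mod_add_div n d
    rw [mul_comm]
    omega
  · intro x hx
    simp only [mem_coe, mem_sigma, mem_Icc, rootSet, mem_filter, mem_range] at hx
    obtain ⟨⟨hv, hvd⟩, hk1, hk2⟩ := hx
    simp only [mem_coe, mem_filter, mem_Ico]
    rw [Nat.le_div_iff_mul_le hd, mul_comm] at hk2
    refine ⟨⟨le_add_left (Nat.le_mul_of_pos_right d hk1), by omega⟩, ?_⟩
    rwa [← QuadDivisor.dvd_mod_iff, Nat.add_mul_mod_self_left, Nat.mod_eq_of_lt hv]
  · exact fun n _ => Nat.mod_add_div n d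
  · intro x hx
    simp only [mem_coe, mem_sigma, rootSet, mem_filter, mem_range] at hx
    refine Sigma.ext ?_ (heq_of_eq ?_)
    · show (x.1 + d * x.2) % d = x.1
      rw [Nat.add_mul_mod_self_left, Nat.mod_eq_of_lt hx.1.1]
    · show (x.1 + d * x.2) / d = x.2
      rw [Nat.add_mul_div_left _ _ hd, Nat.div_eq_of_lt hx.1.1, zero_add]

/-- The roots come in pairs `ν, d - ν`. -/
theorem sum_root_div_eq {d : ℕ} (hd : 2 ≤ d) :
    ∑ v ∈ rootSet d, (v : ℝ) / d = (rootCount d : ℝ) / 2 := by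
  have hmem : ∀ v ∈ rootSet d, 1 ≤ v ∧ v < d ∧ d ∣ v ^ 2 + 1 := fun v hv => by
    simp only [rootSet, mem_filter, mem_range] at hv
    refine ⟨Nat.one_le_iff_ne_zero.2 fun h0 => ?_, hv⟩
    rw [h0] at hv
    have := Nat.le_of_dvd one_pos (by simpa using hv.2)
    omega
  have hneg : ∀ v ∈ rootSet d, d - v ∈ rootSet d := fun v hv => by
    obtain ⟨h1, h2, h3⟩ := hmem v hv
    simp only [rootSet, mem_filter, mem_range]
    refine ⟨by omega, ?_⟩
    have h4 : d ∣ (v ^ 2 + 1) + d * (d - v) := dvd_add h3 (dvd_mul_right _ _)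
    have e : (v ^ 2 + 1) + d * (d - v) = ((d - v) ^ 2 + 1) + d * v := by
      obtain ⟨u, rfl⟩ : ∃ u, d = v + u := ⟨d - v, by omega⟩
      rw [Nat.add_sub_cancel_left]
      ring
    rw [e] at h4
    exact (Nat.dvd_add_left (dvd_mul_right _ _)).1 h4
  have hd0 : (0 : ℝ) < d := Nat.cast_pos.2 (by omega)
  have hswap : ∑ v ∈ rootSet d, (v : ℝ) / d = ∑ v ∈ rootSet d, ((d : ℝ) - v) / d := by
    refine sum_nbij' (fun v => d - v) (fun v => d - v) hneg hneg ?_ ?_ ?_
    · exact fun v hv => by have := hmem v hv; omega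
    · exact fun v hv => by have := hmem v hv; omega
    · intro v hv
      rw [Nat.cast_sub (hmem v hv).2.1.le, sub_sub_cancel]
  have h : ∑ v ∈ rootSet d, (v : ℝ) / d + ∑ v ∈ rootSet d, ((d : ℝ) - v) / d = rootCount d := by
    rw [← sum_add_distrib, sum_congr rfl fun (v : ℕ) _ =>
      show (v : ℝ) / d + ((d : ℝ) - v) / d = 1 by
      field_simp; ring, sum_const, nsmul_one, card_rootSet_eq]
  linarith

/-- The sawtooth at a modulus. -/
def rootSaw (N d : ℕ) : ℝ := ∑ v ∈ rootSet d, (Int.fract (((N : ℝ) - v) / d) - 1 / 2)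

theorem abs_rootSaw_le (N d : ℕ) : |rootSaw N d| ≤ (rootCount d : ℝ) / 2 := by
  refine (abs_sum_le_sum_abs _ _).trans ((sum_le_sum (g := fun _ => (1 : ℝ) / 2)
    fun v _ => ?_).trans
    (by rw [sum_const, nsmul_eq_mul, card_rootSet_eq, mul_one_div]))
  have := Int.fract_nonneg (((N : ℝ) - v) / d)
  have := Int.fract_lt_one (((N : ℝ) - v) / d)
  rw [abs_le]
  constructor <;> linarith

theorem sum_floor_eq {d N : ℕ} (hd : 0 < d) (hdN : d ≤ N) :
    ((∑ v ∈ rootSet d, (N - v) / d : ℕ) : ℝ) =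
      (N : ℝ) * ((rootCount d : ℝ) / d) - (∑ v ∈ rootSet d, (v : ℝ) / d) -
        (rootCount d : ℝ) / 2 - rootSaw N d := by
  have hρ : (rootCount d : ℝ) = ∑ _v ∈ rootSet d, (1 : ℝ) := by
    rw [sum_const, nsmul_one, card_rootSet_eq]
  rw [Nat.cast_sum, rootSaw, hρ, sum_div, sum_div, mul_sum, ← sum_sub_distrib, ← sum_sub_distrib,
    ← sum_sub_distrib]
  refine sum_congr rfl fun v hv => ?_
  have hvN : v ≤ N := by
    simp only [rootSet, mem_filter, mem_range] at hv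
    omega
  rw [← Nat.floor_div_eq_div (K := ℝ), natCast_floor_eq_intCast_floor (by positivity),
    Nat.cast_sub hvN, Int.fract]
  ring

/-- **The sawtooth sum over the roots.** -/
theorem exists_abs_sum_rootSaw_le : ∃ C : ℝ, ∀ N : ℕ, 1 ≤ N →
    |∑ d ∈ Ioc 0 N, rootSaw N d| ≤ C * (N : ℝ) ^ (19 / 20 : ℝ) := by
  obtain ⟨C, hC0, hC⟩ := HooleyPrime.exists_norm_sum_expRoots_le
  refine ⟨1 + 204 + 2 * (4 * C * 141 ^ 7) * 34, fun N hN => ?_⟩
  have hN1 : (1 : ℝ) ≤ N := Nat.one_le_cast.2 hN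
  have hN0 : (0 : ℝ) < N := by linarith
  obtain ⟨e, he⟩ : ∃ e : ℝ, e = (N : ℝ) ^ (1 / 20 : ℝ) := ⟨_, rfl⟩
  obtain ⟨P, hP⟩ : ∃ P : ℝ, P = (N : ℝ) ^ (19 / 20 : ℝ) := ⟨_, rfl⟩
  have he1 : 1 ≤ e := he ▸ Real.one_le_rpow hN1 (by norm_num)
  have hP0 : 0 ≤ P := hP ▸ by positivity
  have heP : e * P = N := by
    rw [he, hP, ← Real.rpow_add hN0]
    norm_num
  obtain ⟨M0, hM0⟩ : ∃ M0, M0 = ⌊P⌋₊ := ⟨_, rfl⟩
  obtain ⟨H, hH⟩ : ∃ H, H = ⌈e⌉₊ := ⟨_, rfl⟩
  have hHe : e ≤ H := hH ▸ Nat.le_ceil e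
  have hH2 : (H : ℝ) ≤ 2 * e := by
    have := Nat.ceil_lt_add_one (show 0 ≤ e by linarith)
    rw [← hH] at this
    linarith
  have hM0P : (M0 : ℝ) ≤ P := hM0 ▸ Nat.floor_le hP0
  have hPM0 : P ≤ ((M0 + 1 : ℕ) : ℝ) := by
    push_cast
    exact hM0 ▸ (Nat.lt_floor_add_one P).le
  have hM0N : M0 ≤ N := Nat.cast_le.1 (hM0P.trans (hP ▸
    (Real.rpow_le_rpow_of_exponent_le hN1 (by norm_num)).trans_eq (Real.rpow_one _)))
  rw [← sum_Ioc_consecutive _ (Nat.zero_le M0) hM0N, ← hP]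
  have hsmall : |∑ d ∈ Ioc 0 M0, rootSaw N d| ≤ P := by
    refine (abs_sum_le_sum_abs _ _).trans ((sum_le_sum fun d _ => abs_rootSaw_le N d).trans ?_)
    rw [← sum_div]
    linarith [QuadDivisor.sum_rootCount_le M0]
  obtain ⟨s, hs⟩ : ∃ s, s = (Ioc M0 N).sigma fun d => rootSet d := ⟨_, rfl⟩
  have hcard : (#s : ℝ) ≤ 2 * N := by
    rw [hs, card_sigma, Nat.cast_sum]
    refine le_trans (le_of_eq (sum_congr rfl fun d _ => by rw [card_rootSet_eq]))
      ((sum_le_sum_of_subset_of_nonneg (Ioc_subset_Ioc_left (Nat.zero_le M0)) fun d _ _ =>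
        Nat.cast_nonneg _).trans (QuadDivisor.sum_rootCount_le N))
  have hlarge : |∑ d ∈ Ioc M0 N, rootSaw N d| ≤ (204 + 2 * (4 * C * 141 ^ 7) * 34) * P := by
    have key := abs_sum_saw_le s (fun x => ((N : ℝ) - (x.2 : ℕ)) / (x.1 : ℕ)) H
    rw [hs, sum_sigma] at key
    refine key.trans ?_
    rw [← hs, add_mul]
    refine add_le_add ?_ ?_
    · rw [div_le_iff₀ (by positivity)]
      calc 102 * (#s : ℝ) ≤ 102 * (2 * (e * P)) := by rw [heP]; gcongr
        _ = 204 * P * e := by ring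
        _ ≤ 204 * P * ((H : ℝ) + 1) := by gcongr; linarith
    · rw [mul_assoc, mul_assoc]
      refine mul_le_mul_of_nonneg_left ?_ zero_le_two
      obtain ⟨L, hL⟩ : ∃ L : ℝ, L = 1 + Real.log N := ⟨_, rfl⟩
      obtain ⟨T, hT⟩ : ∃ T : ℝ, T = (N : ℝ) ^ (3 / 4 : ℝ) * L ^ 7 := ⟨_, rfl⟩
      have hL1 : 1 ≤ L := hL ▸ le_add_of_nonneg_right (Real.log_natCast_nonneg N)
      have hT0 : 0 ≤ T := hT ▸ by positivity
      have hterm : ∀ h ∈ Icc 1 H, ‖∑ x ∈ s, eAdd ((h : ℝ) * (((N : ℝ) - (x.2 : ℕ)) / (x.1 : ℕ)))‖ /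
          h ≤ 4 * C * T * (17 * (e * e)) := fun h hh => by
        obtain ⟨hh1, hh2⟩ := mem_Icc.1 hh
        have hh0 : (0 : ℝ) < h := Nat.cast_pos.2 hh1
        rw [div_le_iff₀ hh0, hs, sum_sigma, sum_congr rfl (g := fun d : ℕ =>
          eAdd ((h : ℝ) * N / d) * expRoots (-(h : ℤ)) d) fun d _ => by
            simp only [expRoots, mul_sum]
            refine sum_congr rfl fun v _ => ?_
            rw [← eAdd_add]
            congr 1
            push_cast
            ring]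
        rcases hM0N.eq_or_lt with heq | hlt
        · rw [heq, Ioc_self, sum_empty, norm_zero]
          positivity
        have hB : ∀ m, M0 ≤ m → m ≤ N → ‖∑ d ∈ Ioc M0 m, expRoots (-(h : ℤ)) d‖ ≤
            4 * C * (h : ℝ) * T := by
          intro m hm hmN
          have hb : ∀ j ≤ N, ‖∑ d ∈ Ioc 0 j, expRoots (-(h : ℤ)) d‖ ≤ 2 * C * (h : ℝ) * T := by
            intro j hj
            have := hC (-(h : ℤ)) (by omega) 1 j one_pos
            rw [filter_true_of_mem fun k _ => one_dvd k] at this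
            refine this.trans ?_
            rw [Int.cast_neg, abs_neg, Int.cast_natCast, Nat.abs_cast, Nat.cast_one, hT, hL,
              show C * (1 + 1) * (h : ℝ) * (j : ℝ) ^ (3 / 4 : ℝ) * (1 + Real.log j) ^ 7 =
                2 * C * h * ((j : ℝ) ^ (3 / 4 : ℝ) * (1 + Real.log j) ^ 7) by ring]
            rcases Nat.eq_zero_or_pos j with rfl | hj0
            · rw [Nat.cast_zero, Real.zero_rpow (by norm_num), zero_mul, mul_zero]
              have := hL1
              rw [hL] at this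
              positivity
            have := Real.log_natCast_nonneg j
            gcongr
          rw [show ∑ d ∈ Ioc M0 m, expRoots (-(h : ℤ)) d = ∑ d ∈ Ioc 0 m, expRoots (-(h : ℤ)) d -
              ∑ d ∈ Ioc 0 M0, expRoots (-(h : ℤ)) d by
            rw [← sum_Ioc_consecutive _ (Nat.zero_le M0) hm, add_sub_cancel_left]]
          refine (norm_sub_le _ _).trans ((add_le_add (hb m hmN) (hb M0 hM0N)).trans_eq ?_)
          ring
        refine (norm_sum_mul_le hlt.le hB).trans ?_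
        rw [show 4 * C * T * (17 * (e * e)) * (h : ℝ) = 4 * C * (h : ℝ) * T * (17 * (e * e)) by
          ring]
        refine mul_le_mul_of_nonneg_left ((variation_eAdd_le (by positivity) hlt).trans ?_)
          (by positivity)
        have h1 : (h : ℝ) * N / ((M0 + 1 : ℕ) : ℝ) ≤ 2 * (e * e) := by
          rw [div_le_iff₀ (by positivity)]
          calc (h : ℝ) * N ≤ 2 * e * (e * P) := by
                rw [heP]
                exact mul_le_mul_of_nonneg_right ((Nat.cast_le.2 hh2).trans hH2) hN0.le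
            _ = 2 * (e * e) * P := by ring
            _ ≤ _ := mul_le_mul_of_nonneg_left hPM0 (by positivity)
        have h2 := mul_le_mul Real.pi_le_four h1 (by positivity) (by norm_num)
        have h3 : 1 ≤ e * e := one_le_mul_of_one_le_of_one_le he1 he1
        linarith
      refine (sum_le_sum hterm).trans ?_
      rw [sum_const, Nat.card_Icc, Nat.add_sub_cancel, nsmul_eq_mul]
      have h1 := Real.log_natCast_le_rpow_div N (show (0 : ℝ) < 1 / 140 by norm_num)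
      rw [le_div_iff₀ (by norm_num)] at h1
      have h2 : (1 : ℝ) ≤ (N : ℝ) ^ (1 / 140 : ℝ) := Real.one_le_rpow hN1 (by norm_num)
      have h3 : L ≤ 141 * (N : ℝ) ^ (1 / 140 : ℝ) := by rw [hL]; linarith
      have h4 : T * (e * (e * e)) ≤ 141 ^ 7 * P := by
        rw [hT]
        calc (N : ℝ) ^ (3 / 4 : ℝ) * L ^ 7 * (e * (e * e))
            ≤ (N : ℝ) ^ (3 / 4 : ℝ) * (141 * (N : ℝ) ^ (1 / 140 : ℝ)) ^ 7 * (e * (e * e)) := by
              gcongr
          _ = 141 ^ 7 * ((N : ℝ) ^ (3 / 4 : ℝ) * ((N : ℝ) ^ (1 / 140 : ℝ)) ^ 7 *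
                (e * (e * e))) := by ring
          _ = 141 ^ 7 * P := by
              rw [he, hP, ← Real.rpow_mul_natCast hN0.le, ← Real.rpow_add hN0,
                ← Real.rpow_add hN0, ← Real.rpow_add hN0, ← Real.rpow_add hN0]
              norm_num
      calc (H : ℝ) * (4 * C * T * (17 * (e * e))) ≤ 2 * e * (4 * C * T * (17 * (e * e))) := by
            gcongr
        _ = 4 * C * 34 * (T * (e * (e * e))) := by ring
        _ ≤ 4 * C * 34 * (141 ^ 7 * P) := by gcongr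
        _ = _ := by ring
  refine (abs_add_le _ _).trans ((add_le_add hsmall hlarge).trans_eq ?_)
  ring

/-- **Hooley's theorem.** -/
theorem exists_sum_divisors_eq : ∃ B C : ℝ, ∀ N : ℕ, 1 ≤ N →
    |(∑ n ∈ Icc 1 N, ((n ^ 2 + 1).divisors.card : ℝ)) - (3 / π * N * Real.log N + B * N)| ≤
      C * (N : ℝ) ^ (19 / 20 : ℝ) := by
  obtain ⟨b, C1, h1⟩ := exists_sum_rootCount_div_eq
  obtain ⟨C2, h2⟩ := exists_abs_sum_rootSaw_le
  refine ⟨2 * b - 3 / π, 2 * |C1| + 2 * 30 + 1 + 2 * |C2|, fun N hN => ?_⟩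
  have hN1 : (1 : ℝ) ≤ N := Nat.one_le_cast.2 hN
  have hN0 : (0 : ℝ) < N := by linarith
  obtain ⟨A, hA⟩ : ∃ A, A = ∑ n ∈ Ioc 0 N, (rootCount n : ℝ) / n := ⟨_, rfl⟩
  obtain ⟨R, hR⟩ : ∃ R, R = ∑ n ∈ Ioc 0 N, (rootCount n : ℝ) := ⟨_, rfl⟩
  obtain ⟨Ψ, hΨ⟩ : ∃ Ψ, Ψ = ∑ d ∈ Ioc 0 N, rootSaw N d := ⟨_, rfl⟩
  obtain ⟨P, hP⟩ : ∃ P : ℝ, P = (N : ℝ) ^ (19 / 20 : ℝ) := ⟨_, rfl⟩
  have hP1 : 1 ≤ P := hP ▸ Real.one_le_rpow hN1 (by norm_num)
  have hI : Icc 1 N = Ioc 0 N := by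
    ext
    simp only [mem_Icc, mem_Ioc]
    omega
  have hhalf : ∑ d ∈ Ioc 0 N, ∑ v ∈ rootSet d, (v : ℝ) / d = R / 2 - 1 / 2 := by
    have h1' : rootSet 1 = {0} := by decide
    rw [hR, ← sum_Ioc_consecutive _ zero_le_one hN,
      ← sum_Ioc_consecutive (fun n => (rootCount n : ℝ)) zero_le_one hN,
      sum_congr rfl fun d hd => sum_root_div_eq (d := d) (mem_Ioc.1 hd).1, ← sum_div,
      show Ioc 0 1 = {1} from rfl, sum_singleton, sum_singleton, h1', sum_singleton,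
      QuadDivisor.rootCount_one, Nat.cast_zero, Nat.cast_one]
    ring
  have hsum : (∑ n ∈ Icc 1 N, ((n ^ 2 + 1).divisors.card : ℝ)) =
      2 * ((N : ℝ) * A - R + 1 / 2 - Ψ) := by
    rw [← Nat.cast_sum, QuadDivisor.sum_divisors_eq, hI, Nat.cast_mul, Nat.cast_ofNat,
      Nat.cast_sum, sum_congr rfl fun d hd => by
        rw [card_hits_eq (mem_Ioc.1 hd).1 (mem_Ioc.1 hd).2,
          sum_floor_eq (mem_Ioc.1 hd).1 (mem_Ioc.1 hd).2],
      sum_sub_distrib, sum_sub_distrib, sum_sub_distrib, ← mul_sum, ← sum_div, hhalf, ← hA, ← hR,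
      ← hΨ]
    ring
  have e1 : |2 * (N : ℝ) * (A - 3 / (2 * π) * Real.log N - b)| ≤ 2 * |C1| * P := by
    rw [abs_mul, abs_of_pos (by positivity : (0 : ℝ) < 2 * N)]
    refine (mul_le_mul_of_nonneg_left (((h1 N hN).trans' (le_of_eq (by rw [hA]))).trans
      (mul_le_mul_of_nonneg_right (le_abs_self C1) (by positivity))) (by positivity)).trans ?_
    rw [show 2 * (N : ℝ) * (|C1| * (N : ℝ) ^ (-(1 / 8) : ℝ)) =
      2 * |C1| * ((N : ℝ) ^ (1 : ℝ) * (N : ℝ) ^ (-(1 / 8) : ℝ)) by rw [Real.rpow_one]; ring,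
      ← Real.rpow_add hN0]
    refine mul_le_mul_of_nonneg_left ?_ (by positivity)
    exact hP ▸ Real.rpow_le_rpow_of_exponent_le hN1 (by norm_num)
  have e2 : |2 * (R - 3 / (2 * π) * N)| ≤ 2 * 30 * P := by
    rw [abs_mul, abs_two, mul_assoc]
    refine mul_le_mul_of_nonneg_left ?_ zero_le_two
    have h := abs_rootErr_le N
    rw [rootErr, ← hR] at h
    refine h.trans (mul_le_mul_of_nonneg_left ?_ (by norm_num))
    exact hP ▸ Real.rpow_le_rpow_of_exponent_le hN1 (by norm_num)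
  have e3 : |2 * Ψ| ≤ 2 * |C2| * P := by
    rw [abs_mul, abs_two, mul_assoc, hΨ, hP]
    exact mul_le_mul_of_nonneg_left ((h2 N hN).trans
      (mul_le_mul_of_nonneg_right (le_abs_self C2) (by positivity))) zero_le_two
  have e : (∑ n ∈ Icc 1 N, ((n ^ 2 + 1).divisors.card : ℝ)) -
      (3 / π * N * Real.log N + (2 * b - 3 / π) * N) =
      2 * (N : ℝ) * (A - 3 / (2 * π) * Real.log N - b) - 2 * (R - 3 / (2 * π) * N) + 1 -
        2 * Ψ := by
    rw [hsum]
    field_simp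
    ring
  rw [e, ← hP]
  rw [abs_le] at e1 e2 e3 ⊢
  constructor <;> linarith

end FA.HooleyDivisor
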