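import Fermat.Agent.Discrepancy.ErdosTuran
import Fermat.Agent.Equidistribution.Criterion

/-!
# Sawtooth sums and exponential sums

`|∑ ({y} - 1/2)| ≤ 102 #s / (H + 1) + 2 ∑_{h ≤ H} ‖∑ e (h y)‖ / h`, by the Erdős–Turán inequality,
and partial summation against a complex weight.
-/

set_option autoImplicit false

noncomputable section

namespace FA.HooleyDivisor

open Finset
open FA.Discrepancy (countIco expMean erdos_turan)
open FA.ThreePrimes (eAdd norm_eAdd)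
open scoped Real

/-- The staircase is within `1 / M` of `y`. -/
theorem abs_staircase_sub_le {y : ℝ} (hy0 : 0 ≤ y) (hy1 : y < 1) {M : ℕ} (hM : 0 < M) :
    |(∑ j ∈ range M, if ((j : ℝ) + 1) / M ≤ y then (1 : ℝ) else 0) / M - y| ≤ 1 / M := by
  have hM0 : (0 : ℝ) < M := Nat.cast_pos.2 hM
  have hfl : ⌊(M : ℝ) * y⌋₊ ≤ M := by
    refine (Nat.floor_lt (mul_nonneg hM0.le hy0)).2 ?_ |>.le
    nlinarith
  have e : (range M).filter (fun j : ℕ => ((j : ℝ) + 1) / M ≤ y) = range ⌊(M : ℝ) * y⌋₊ := by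
    ext j
    have hiff : j < ⌊(M : ℝ) * y⌋₊ ↔ ((j + 1 : ℕ) : ℝ) ≤ M * y :=
      Nat.lt_iff_add_one_le.trans (Nat.le_floor_iff (mul_nonneg hM0.le hy0))
    rw [mem_filter, mem_range, mem_range, div_le_iff₀ hM0, mul_comm y, hiff, Nat.cast_add_one]
    refine ⟨fun h => h.2, fun h => ⟨?_, h⟩⟩
    have := hiff.2 (by rw [Nat.cast_add_one]; exact h)
    omega
  rw [sum_boole, e, card_range, div_sub' hM0.ne', abs_div, Nat.abs_cast]
  refine div_le_div_of_nonneg_right ?_ hM0.le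
  have := Nat.floor_le (mul_nonneg hM0.le hy0)
  have := Nat.lt_floor_add_one ((M : ℝ) * y)
  rw [abs_le]
  constructor <;> linarith

theorem abs_sum_saw_range_le (y : ℕ → ℝ) {N : ℕ} (hN : 0 < N) (H : ℕ) :
    |∑ n ∈ range N, (Int.fract (y n) - 1 / 2)| ≤
      102 * N / ((H : ℝ) + 1) + 2 * ∑ h ∈ Icc 1 H, ‖∑ n ∈ range N, eAdd ((h : ℝ) * y n)‖ / h := by
  obtain ⟨M, hM⟩ : ∃ M, M = H + 1 := ⟨_, rfl⟩
  have hM0 : (0 : ℝ) < M := Nat.cast_pos.2 (by omega)
  have hN0 : (0 : ℝ) < N := Nat.cast_pos.2 hN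
  obtain ⟨D, hD⟩ : ∃ D : ℝ, D = 100 * N / ((H : ℝ) + 1) +
      2 * ∑ h ∈ Icc 1 H, ‖∑ n ∈ range N, eAdd ((h : ℝ) * y n)‖ / h := ⟨_, rfl⟩
  have hdisc : ∀ j ∈ range M,
      |(countIco y N (((j : ℝ) + 1) / M) 1 : ℝ) - N * (1 - ((j : ℝ) + 1) / M)| ≤ D := by
    intro j hj
    have hj1 : ((j : ℝ) + 1) / M ≤ 1 := by
      rw [div_le_one hM0]
      exact_mod_cast mem_range.1 hj
    have h := mul_le_mul_of_nonneg_left
      (erdos_turan (x := y) hN H (a := ((j : ℝ) + 1) / M) (by positivity) hj1 le_rfl) hN0.le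
    rw [← abs_of_pos hN0, ← abs_mul, mul_sub, abs_of_pos hN0, mul_div_cancel₀ _ hN0.ne'] at h
    refine h.trans_eq ?_
    unfold expMean
    rw [hD, mul_add, mul_left_comm, mul_sum]
    simp only [mul_div_assoc]
    congr 1
    · ring
    · congr 1
      refine sum_congr rfl fun x _ => ?_
      rw [mul_div_assoc', mul_div_cancel₀ _ hN0.ne']
  have hcount : ∀ j : ℕ, (countIco y N (((j : ℝ) + 1) / M) 1 : ℝ) =
      ∑ n ∈ range N, if ((j : ℝ) + 1) / M ≤ Int.fract (y n) then (1 : ℝ) else 0 := fun j => by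
    rw [countIco, ← sum_boole]
    exact sum_congr rfl fun n _ => if_congr
      ⟨fun h => h.1, fun h => ⟨h, Int.fract_lt_one _⟩⟩ rfl rfl
  have hG : ∑ j ∈ range M, (1 - ((j : ℝ) + 1) / M) = ((M : ℝ) - 1) / 2 := by
    have : ∀ m : ℕ, ∑ j ∈ range m, ((j : ℝ) + 1) = (m : ℝ) * (m + 1) / 2 := fun m => by
      induction m with
      | zero => simp
      | succ m ih => rw [sum_range_succ, ih]; push_cast; ring
    rw [sum_sub_distrib, ← sum_div, this, sum_const, card_range, nsmul_eq_mul, mul_one]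
    field_simp
    ring
  have h1 : |∑ n ∈ range N, ((∑ j ∈ range M,
      if ((j : ℝ) + 1) / M ≤ Int.fract (y n) then (1 : ℝ) else 0) / M - Int.fract (y n))| ≤
      N / M := by
    refine (abs_sum_le_sum_abs _ _).trans ((sum_le_sum fun n _ =>
      abs_staircase_sub_le (Int.fract_nonneg _) (Int.fract_lt_one _) (by omega)).trans_eq ?_)
    rw [sum_const, card_range, nsmul_eq_mul, mul_one_div]
  have h2 : |(∑ j ∈ range M, ((countIco y N (((j : ℝ) + 1) / M) 1 : ℝ) -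
      N * (1 - ((j : ℝ) + 1) / M))) / M| ≤ D := by
    rw [abs_div, Nat.abs_cast, div_le_iff₀ hM0]
    refine (abs_sum_le_sum_abs _ _).trans ((sum_le_sum hdisc).trans_eq ?_)
    rw [sum_const, card_range, nsmul_eq_mul, mul_comm]
  rw [sum_sub_distrib, ← mul_sum, hG, sub_div, sum_congr rfl fun j _ => hcount j, sum_comm,
    sum_div] at h2
  rw [sum_sub_distrib] at h1
  rw [sum_sub_distrib, sum_const, card_range, nsmul_eq_mul]
  have e : (N : ℝ) * (((M : ℝ) - 1) / 2) / M = N * (1 / 2) - N / M / 2 := by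
    field_simp
  rw [e] at h2
  have e2 : 102 * (N : ℝ) / ((H : ℝ) + 1) = 100 * N / ((H : ℝ) + 1) + 2 * (N / M) := by
    rw [hM]
    push_cast
    ring
  have h3 : (0 : ℝ) ≤ N / M := by positivity
  rw [hD] at h2
  rw [abs_le] at h1 h2 ⊢
  constructor <;> linarith

/-- **The sawtooth against exponential sums**, over any finite set. -/
theorem abs_sum_saw_le {ι : Type*} (s : Finset ι) (F : ι → ℝ) (H : ℕ) :
    |∑ i ∈ s, (Int.fract (F i) - 1 / 2)| ≤
      102 * #s / ((H : ℝ) + 1) + 2 * ∑ h ∈ Icc 1 H, ‖∑ i ∈ s, eAdd ((h : ℝ) * F i)‖ / h := by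
  rcases Nat.eq_zero_or_pos #s with h0 | h0
  · simp [card_eq_zero.1 h0]
  obtain ⟨y, hy⟩ : ∃ y : ℕ → ℝ, y = fun n =>
      if h : n < #s then F (s.equivFin.symm ⟨n, h⟩) else 0 := ⟨_, rfl⟩
  have key : ∀ {β : Type} [AddCommMonoid β] (G : ℝ → β),
      ∑ i ∈ s, G (F i) = ∑ n ∈ range #s, G (y n) := fun {β} _ G => by
    rw [← Fin.sum_univ_eq_sum_range, ← sum_coe_sort s, ← Equiv.sum_comp s.equivFin.symm]
    exact sum_congr rfl fun n _ => by rw [hy]; simp [n.isLt]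
  rw [key (fun t => Int.fract t - 1 / 2)]
  rw [sum_congr rfl fun (h : ℕ) _ => congrArg (fun z : ℂ => ‖z‖ / (h : ℝ))
    (key fun t => eAdd ((h : ℝ) * t))]
  exact abs_sum_saw_range_le y h0 H

/-- Partial summation with a complex weight. -/
theorem norm_sum_mul_le {g c : ℕ → ℂ} {M0 M : ℕ} (hM : M0 ≤ M) {B : ℝ}
    (hB : ∀ m, M0 ≤ m → m ≤ M → ‖∑ i ∈ Ioc M0 m, c i‖ ≤ B) :
    ‖∑ i ∈ Ioc M0 M, g i * c i‖ ≤
      B * (‖g M‖ + ∑ i ∈ Ico (M0 + 1) M, ‖g (i + 1) - g i‖) := by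
  have key : ∀ m, M0 ≤ m → m ≤ M →
      ‖(∑ i ∈ Ioc M0 m, g i * c i) - g m * ∑ i ∈ Ioc M0 m, c i‖ ≤
        B * ∑ i ∈ Ico (M0 + 1) m, ‖g (i + 1) - g i‖ := by
    intro m hm
    induction m, hm using Nat.le_induction with
    | base => intro _; simp
    | succ m hm ih =>
      intro hm1
      have h := ih (by omega)
      rw [sum_Ioc_succ_top hm, sum_Ioc_succ_top hm]
      rcases eq_or_lt_of_le hm with rfl | hlt
      · simp
      rw [sum_Ico_succ_top (by omega), mul_add B]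
      have e : (∑ i ∈ Ioc M0 m, g i * c i) + g (m + 1) * c (m + 1) -
          g (m + 1) * ((∑ i ∈ Ioc M0 m, c i) + c (m + 1)) =
          ((∑ i ∈ Ioc M0 m, g i * c i) - g m * ∑ i ∈ Ioc M0 m, c i) -
          (g (m + 1) - g m) * ∑ i ∈ Ioc M0 m, c i := by ring
      rw [e]
      refine (norm_sub_le _ _).trans (add_le_add h ?_)
      rw [norm_mul, mul_comm B]
      exact mul_le_mul_of_nonneg_left (hB m hm (by omega)) (norm_nonneg _)
  have h1 := key M hM le_rfl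
  refine (norm_le_norm_sub_add _ (g M * ∑ i ∈ Ioc M0 M, c i)).trans ?_
  rw [norm_mul, mul_add, add_comm]
  exact add_le_add ((mul_le_mul_of_nonneg_left (hB M hM le_rfl) (norm_nonneg _)).trans_eq
    (mul_comm _ _)) h1

/-- The variation of `i ↦ e (T / i)`. -/
theorem variation_eAdd_le {T : ℝ} (hT : 0 ≤ T) {M0 M : ℕ} (hM : M0 < M) :
    ‖eAdd (T / M)‖ + ∑ i ∈ Ico (M0 + 1) M, ‖eAdd (T / ((i + 1 : ℕ) : ℝ)) - eAdd (T / i)‖ ≤
      1 + 2 * π * (T / ((M0 + 1 : ℕ) : ℝ)) := by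
  rw [norm_eAdd]
  refine add_le_add le_rfl ?_
  refine (sum_le_sum (g := fun i : ℕ => 2 * π * (T / i - T / ((i + 1 : ℕ) : ℝ)))
    fun i hi => ?_).trans ?_
  · have hi0 : (0 : ℝ) < i := Nat.cast_pos.2 (by have := (mem_Ico.1 hi).1; omega)
    refine (Equidist.norm_eAdd_sub_le _ _).trans_eq ?_
    rw [abs_sub_comm, abs_of_nonneg]
    refine sub_nonneg.2 (div_le_div_of_nonneg_left hT hi0 ?_)
    push_cast
    linarith
  · rw [← mul_sum]
    refine mul_le_mul_of_nonneg_left ?_ (by positivity)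
    have : ∀ m, M0 + 1 ≤ m → ∑ i ∈ Ico (M0 + 1) m, (T / (i : ℝ) - T / ((i + 1 : ℕ) : ℝ)) =
        T / ((M0 + 1 : ℕ) : ℝ) - T / m := by
      intro m hm
      induction m, hm using Nat.le_induction with
      | base => simp
      | succ m hm ih => rw [sum_Ico_succ_top hm, ih]; ring
    rw [this M hM]
    exact sub_le_self _ (by positivity)

end FA.HooleyDivisor
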